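import Mathlib

/-!
# Row S59, piece N1 (Wiles–Lenstra numerical criterion): definitions (helper67)

* `etaIdeal π` : the congruence ideal `η = π (Ann (ker π))` of an augmented `O`-algebra
  `π : T →ₐ[O] O`.
* `SimpleSocleMod J z` : in a local ring `E`, the socle `(J : 𝔪) / J` of `E ⧸ J` is the
  one-dimensional space spanned by the class of `z` (elementwise formulation).
-/

set_option autoImplicit false

namespace Fermat.Agent.S59.H67

open IsLocalRing

/-- The congruence ideal `η_T = π_T (Ann_T (ker π_T))` of an augmented `O`-algebra. -/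
def etaIdeal {O T : Type*} [CommRing O] [CommRing T] [Algebra O T] (π : T →ₐ[O] O) : Ideal O :=
  Ideal.map π (RingHom.ker π).annihilator

/-- `z` spans the socle of `E ⧸ J`: `z ∉ J`, `𝔪 z ⊆ J`, and every `w` with `𝔪 w ⊆ J` is a
multiple of `z` modulo `J`. -/
def SimpleSocleMod {E : Type*} [CommRing E] [IsLocalRing E] (J : Ideal E) (z : E) : Prop :=
  z ∉ J ∧ (∀ a ∈ maximalIdeal E, a * z ∈ J) ∧
    ∀ w : E, (∀ a ∈ maximalIdeal E, a * w ∈ J) → ∃ c : E, w - c * z ∈ J

end Fermat.Agent.S59.H67
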