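import Mathlib

/-!
# Row S59, piece N1-A: Tate's lemma, non-vanishing half (helper67)

Let `k` be a commutative ring, `Q = k⟦X_i : i ∈ σ⟧` (`σ` finite), `ϖ ∈ k` a non-unit.
If `h = G · X` and `X_i ^ a ∈ (h) + (ϖ)` for all `i`, then `det G ∉ (h) + (ϖ)`.

The proof is elementary (no Koszul complex): one compares with the monomial complete
intersection `(X_i ^ a)` through "box ideals" defined by coefficient conditions.
-/

set_option autoImplicit false
set_option linter.unusedSectionVars false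

namespace Fermat.Agent.S59.H67

open MvPowerSeries

section Box

variable {σ : Type*} {k : Type*} [CommRing k]

/-- The ideal of power series `f` such that `coeff e f ∈ 𝔠` for all exponents `e` with
`e j < a` for all `j ∈ U`. -/
def boxIdeal (𝔠 : Ideal k) (U : Set σ) (a : ℕ) : Ideal (MvPowerSeries σ k) where
  carrier := {f | ∀ e : σ →₀ ℕ, (∀ j ∈ U, e j < a) → coeff e f ∈ 𝔠}
  zero_mem' := by
    intro e _
    simp
  add_mem' := by
    intro f g hf hg e he
    rw [map_add]
    exact 𝔠.add_mem (hf e he) (hg e he)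
  smul_mem' := by
    classical
    intro c f hf e he
    rw [smul_eq_mul, coeff_mul]
    refine Ideal.sum_mem _ ?_
    rintro ⟨p, q⟩ hpq
    have hpq' : p + q = e := by simpa using hpq
    have hq : ∀ j, q j ≤ e j := by
      intro j
      rw [← hpq']
      simp
    exact 𝔠.mul_mem_left _ (hf q (fun j hj => lt_of_le_of_lt (hq j) (he j hj)))

theorem mem_boxIdeal {𝔠 : Ideal k} {U : Set σ} {a : ℕ} {f : MvPowerSeries σ k} :
    f ∈ boxIdeal 𝔠 U a ↔ ∀ e : σ →₀ ℕ, (∀ j ∈ U, e j < a) → coeff e f ∈ 𝔠 := Iff.rfl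

theorem boxIdeal_mono (𝔠 : Ideal k) {U U' : Set σ} (h : U ⊆ U') (a : ℕ) :
    boxIdeal 𝔠 U a ≤ boxIdeal 𝔠 U' a := by
  intro f hf e he
  exact hf e (fun j hj => he j (h hj))

theorem X_pow_mem_boxIdeal (𝔠 : Ideal k) {U : Set σ} {j : σ} (hj : j ∈ U) (a : ℕ) :
    (X j : MvPowerSeries σ k) ^ a ∈ boxIdeal 𝔠 U a := by
  classical
  intro e he
  rw [coeff_X_pow]
  split_ifs with h
  · exfalso
    have := he j hj
    rw [h] at this
    simp at this
  · exact 𝔠.zero_mem

theorem C_mul_mem_boxIdeal (𝔠 : Ideal k) (U : Set σ) (a : ℕ) {c : k} (hc : c ∈ 𝔠)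
    (g : MvPowerSeries σ k) : C c * g ∈ boxIdeal 𝔠 U a := by
  classical
  intro e _
  have : C (σ := σ) c * g = c • g := by
    rw [← MvPowerSeries.smul_eq_C_mul]
  rw [this, MvPowerSeries.coeff_smul]
  exact 𝔠.mul_mem_right _ hc

theorem mem_boxIdeal_of_X_mul_mem (𝔠 : Ideal k) {U : Set σ} {r : σ} (hr : r ∉ U) (a : ℕ)
    {f : MvPowerSeries σ k} (hf : X r * f ∈ boxIdeal 𝔠 U a) : f ∈ boxIdeal 𝔠 U a := by
  classical
  intro e he
  have h1 : coeff (Finsupp.single r 1 + e) (X r * f) = coeff e f := by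
    rw [X_def, coeff_add_monomial_mul, one_mul]
  rw [← h1]
  apply hf
  intro j hj
  have hjr : j ≠ r := fun h => hr (h ▸ hj)
  simpa [Finsupp.single_apply, hjr.symm] using he j hj

end Box

section Det

variable {σ : Type*} [Fintype σ] [DecidableEq σ] {k : Type*} [CommRing k]

/-- The monomial `∏ X_i ^ b` has coefficient `1` at the exponent `(b, …, b)`. -/
theorem coeff_prod_X_pow (b : ℕ) :
    coeff (Finsupp.equivFunOnFinite.symm (fun _ : σ => b))
      (∏ i : σ, (X i : MvPowerSeries σ k) ^ b) = 1 := by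
  have h : (∏ i : σ, (X i : MvPowerSeries σ k) ^ b) =
      monomial (Finsupp.equivFunOnFinite.symm (fun _ : σ => b)) 1 := by
    have h1 : (∏ i : σ, (X i : MvPowerSeries σ k) ^ b) =
        ((∏ i : σ, (MvPolynomial.X i : MvPolynomial σ k) ^ b : MvPolynomial σ k) :
          MvPowerSeries σ k) := by
      rw [← MvPolynomial.coeToMvPowerSeries.ringHom_apply, map_prod]
      refine Finset.prod_congr rfl (fun i _ => ?_)
      rw [map_pow, MvPolynomial.coeToMvPowerSeries.ringHom_apply, MvPolynomial.coe_X]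
    rw [h1, ← MvPolynomial.coe_monomial]
    congr 1
    rw [MvPolynomial.monomial_eq, map_one, one_mul, Finsupp.prod_pow]
    rfl
  rw [h, coeff_monomial_same]

theorem prod_X_pow_notMem_boxIdeal (𝔠 : Ideal k) (h𝔠 : (1 : k) ∉ 𝔠) (b : ℕ) :
    (∏ i : σ, (X i : MvPowerSeries σ k) ^ b) ∉ boxIdeal 𝔠 (Set.univ : Set σ) (b + 1) := by
  intro h
  have := h (Finsupp.equivFunOnFinite.symm (fun _ : σ => b)) (fun j _ => by simp)
  rw [coeff_prod_X_pow] at this
  exact h𝔠 this

/-- Key congruence: if `G' · X ≡ (X_i ^ (b+1))_i` modulo `𝔠`, then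
`det G' ≡ ∏ X_i ^ b` modulo the box ideal. -/
theorem det_sub_prod_mem_boxIdeal (𝔠 : Ideal k) (b : ℕ)
    (G' : Matrix σ σ (MvPowerSeries σ k))
    (hG' : ∀ i, ∑ j, G' i j * X j - (X i : MvPowerSeries σ k) ^ (b + 1) ∈
      boxIdeal 𝔠 (∅ : Set σ) (b + 1)) :
    G'.det - ∏ i : σ, (X i : MvPowerSeries σ k) ^ b ∈
      boxIdeal 𝔠 (Set.univ : Set σ) (b + 1) := by
  set Δ : Matrix σ σ (MvPowerSeries σ k) :=
    Matrix.diagonal (fun i => (X i : MvPowerSeries σ k) ^ b) with hΔ
  have hΔX : ∀ i, ∑ j, Δ i j * X j = (X i : MvPowerSeries σ k) ^ (b + 1) := by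
    intro i
    rw [Finset.sum_eq_single i]
    · rw [hΔ, Matrix.diagonal_apply_eq, pow_succ]
    · intro j _ hji
      rw [hΔ, Matrix.diagonal_apply_ne _ hji.symm, zero_mul]
    · intro h
      exact absurd (Finset.mem_univ i) h
  -- the interpolating matrices
  let M : Finset σ → Matrix σ σ (MvPowerSeries σ k) :=
    fun S => Matrix.of (fun i => if i ∈ S then G' i else Δ i)
  have hMX : ∀ (S : Finset σ) (i : σ), ∑ j, M S i j * X j - (X i : MvPowerSeries σ k) ^ (b + 1) ∈
      boxIdeal 𝔠 (∅ : Set σ) (b + 1) := by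
    intro S i
    by_cases hi : i ∈ S
    · have : ∀ j, M S i j = G' i j := fun j => by simp [M, hi]
      simp only [this]
      exact hG' i
    · have : ∀ j, M S i j = Δ i j := fun j => by simp [M, hi]
      simp only [this]
      rw [hΔX i, sub_self]
      exact Ideal.zero_mem _
  have key : ∀ S : Finset σ, (M S).det - Δ.det ∈ boxIdeal 𝔠 (Set.univ : Set σ) (b + 1) := by
    intro S
    induction S using Finset.induction_on with
    | empty =>
      have : M ∅ = Δ := by
        ext i j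
        simp [M]
      rw [this, sub_self]
      exact Ideal.zero_mem _
    | insert r S hr ih =>
      -- `M (insert r S)` and `M S` differ only in row `r`
      have h1 : M (insert r S) = (M S).updateRow r (G' r) := by
        ext i j
        by_cases hir : i = r
        · subst hir
          simp [M]
        · simp [M, Matrix.updateRow_apply, hir]
      have h2 : M S = (M S).updateRow r (Δ r) := by
        ext i j
        by_cases hir : i = r
        · subst hir
          simp [M, hr]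
        · simp [Matrix.updateRow_apply, hir]
      set A : Matrix σ σ (MvPowerSeries σ k) := (M S).updateRow r (G' r - Δ r) with hA
      have h3 : (M (insert r S)).det - (M S).det = A.det := by
        have := Matrix.det_updateRow_add (M S) r (G' r - Δ r) (Δ r)
        rw [sub_add_cancel, ← h1, ← h2] at this
        rw [this, hA]
        ring
      -- `A · X` lies in the box ideal for `univ \ {r}`
      have hAX : ∀ i, ∑ j, A i j * X j ∈
          boxIdeal 𝔠 ((Set.univ : Set σ) \ {r}) (b + 1) := by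
        intro i
        by_cases hir : i = r
        · subst hir
          have : ∀ j, A i j = G' i j - Δ i j := fun j => by
            simp [hA, Matrix.updateRow_apply]
          simp only [this, sub_mul, Finset.sum_sub_distrib]
          rw [hΔX i]
          exact boxIdeal_mono 𝔠 (Set.empty_subset _) _ (hG' i)
        · have : ∀ j, A i j = M S i j := fun j => by
            simp [hA, Matrix.updateRow_apply, hir]
          simp only [this]
          have h4 := boxIdeal_mono 𝔠 (Set.empty_subset ((Set.univ : Set σ) \ {r})) _ (hMX S i)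
          have h5 : (X i : MvPowerSeries σ k) ^ (b + 1) ∈
              boxIdeal 𝔠 ((Set.univ : Set σ) \ {r}) (b + 1) :=
            X_pow_mem_boxIdeal 𝔠 (show i ∈ (Set.univ : Set σ) \ {r} from ⟨Set.mem_univ i, hir⟩) _
          have := Ideal.add_mem _ h4 h5
          rwa [sub_add_cancel] at this
      -- Cramer
      have hcr : A.det * X r = ∑ j, A.adjugate r j * ∑ l, A j l * X l := by
        have h6 : (A.adjugate * A).mulVec (fun l => (X l : MvPowerSeries σ k)) r =
            A.det * X r := by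
          rw [Matrix.adjugate_mul]
          simp [Matrix.mulVec, dotProduct, Matrix.smul_apply, Matrix.one_apply]
        rw [← h6, ← Matrix.mulVec_mulVec]
        simp [Matrix.mulVec, dotProduct]
      have h7 : X r * A.det ∈ boxIdeal 𝔠 ((Set.univ : Set σ) \ {r}) (b + 1) := by
        rw [mul_comm, hcr]
        exact Ideal.sum_mem _ (fun j _ => Ideal.mul_mem_left _ _ (hAX j))
      have h8 : A.det ∈ boxIdeal 𝔠 ((Set.univ : Set σ) \ {r}) (b + 1) :=
        mem_boxIdeal_of_X_mul_mem 𝔠 (by simp) _ h7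
      have h9 : A.det ∈ boxIdeal 𝔠 (Set.univ : Set σ) (b + 1) :=
        boxIdeal_mono 𝔠 Set.sdiff_subset _ h8
      have : (M (insert r S)).det - Δ.det = A.det + ((M S).det - Δ.det) := by
        rw [← h3]
        ring
      rw [this]
      exact Ideal.add_mem _ h9 ih
  have hMuniv : M Finset.univ = G' := by
    ext i j
    simp [M]
  have := key Finset.univ
  rwa [hMuniv, hΔ, Matrix.det_diagonal] at this

end Det

section Main

variable {σ : Type*} [Fintype σ] [DecidableEq σ] {k : Type*} [CommRing k]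

/-- **Tate's lemma, non-vanishing half** (general finite index type). -/
theorem det_notMem_span_sup' (ϖ : k) (hϖ : ¬ IsUnit ϖ)
    (h : σ → MvPowerSeries σ k) (G : Matrix σ σ (MvPowerSeries σ k))
    (hG : ∀ i, h i = ∑ j, G i j * X j) (a : ℕ)
    (hprim : ∀ i, (X i : MvPowerSeries σ k) ^ a ∈
      Ideal.span (Set.range h) ⊔ Ideal.span {(C ϖ : MvPowerSeries σ k)}) :
    G.det ∉ Ideal.span (Set.range h) ⊔ Ideal.span {(C ϖ : MvPowerSeries σ k)} := by
  set 𝔠 : Ideal k := Ideal.span {ϖ} with h𝔠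
  have h1 : (1 : k) ∉ 𝔠 := by
    intro h1
    rw [h𝔠, Ideal.mem_span_singleton'] at h1
    obtain ⟨c, hc⟩ := h1
    exact hϖ (IsUnit.of_mul_eq_one c (by rw [mul_comm]; exact hc))
  have hϖ𝔠 : ϖ ∈ 𝔠 := Ideal.subset_span rfl
  -- replace `a` by `a + 1`
  have hprim' : ∀ i, (X i : MvPowerSeries σ k) ^ (a + 1) ∈
      Ideal.span (Set.range h) ⊔ Ideal.span {(C ϖ : MvPowerSeries σ k)} := by
    intro i
    rw [pow_succ]
    exact Ideal.mul_mem_right _ _ (hprim i)
  -- choose `H` and `r`
  have hex : ∀ i, ∃ (c : σ → MvPowerSeries σ k) (r : MvPowerSeries σ k),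
      (X i : MvPowerSeries σ k) ^ (a + 1) = ∑ j, c j * h j + r * C ϖ := by
    intro i
    obtain ⟨u, hu, v, hv, huv⟩ := Submodule.mem_sup.mp (hprim' i)
    obtain ⟨c, hc⟩ := Ideal.mem_span_range_iff_exists_fun.mp hu
    obtain ⟨r, hr⟩ := Ideal.mem_span_singleton'.mp hv
    exact ⟨c, r, by rw [hc, hr, huv]⟩
  choose H r hHr using hex
  let Hm : Matrix σ σ (MvPowerSeries σ k) := Matrix.of H
  have hbox : ∀ (U : Set σ) (g : MvPowerSeries σ k), g * C ϖ ∈ boxIdeal 𝔠 U (a + 1) := by
    intro U g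
    rw [mul_comm]
    exact C_mul_mem_boxIdeal 𝔠 U _ hϖ𝔠 g
  have hHG : ∀ i, ∑ j, (Hm * G) i j * X j = ∑ l, H i l * h l := by
    intro i
    simp only [Matrix.mul_apply, Finset.sum_mul]
    rw [Finset.sum_comm]
    refine Finset.sum_congr rfl (fun l _ => ?_)
    rw [hG l, Finset.mul_sum]
    refine Finset.sum_congr rfl (fun j _ => ?_)
    simp [Hm, mul_assoc]
  have hcong := det_sub_prod_mem_boxIdeal 𝔠 a (Hm * G) (by
    intro i
    rw [hHG i, hHr i]
    have : ∑ j, H i j * h j - (∑ j, H i j * h j + r i * C ϖ) = -(r i * C ϖ) := by ring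
    rw [this]
    exact Ideal.neg_mem_iff _ |>.mpr (hbox _ _))
  intro hdet
  -- `det H * h j` lies in the box ideal
  have hHh : ∀ j, Hm.det * h j ∈ boxIdeal 𝔠 (Set.univ : Set σ) (a + 1) := by
    intro j
    have h6 : (Hm.adjugate * Hm).mulVec h j = Hm.det * h j := by
      rw [Matrix.adjugate_mul]
      simp [Matrix.mulVec, dotProduct, Matrix.smul_apply, Matrix.one_apply]
    rw [← h6, ← Matrix.mulVec_mulVec]
    simp only [Matrix.mulVec, dotProduct]
    refine Ideal.sum_mem _ (fun l _ => Ideal.mul_mem_left _ _ ?_)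
    have h7 : ∑ x, Hm l x * h x = (X l : MvPowerSeries σ k) ^ (a + 1) - r l * C ϖ := by
      rw [hHr l]
      simp [Hm]
    rw [h7]
    exact Ideal.sub_mem _ (X_pow_mem_boxIdeal 𝔠 (Set.mem_univ l) _) (hbox _ _)
  have hdetbox : Hm.det * G.det ∈ boxIdeal 𝔠 (Set.univ : Set σ) (a + 1) := by
    obtain ⟨u, hu, v, hv, huv⟩ := Submodule.mem_sup.mp hdet
    obtain ⟨c, hc⟩ := Ideal.mem_span_range_iff_exists_fun.mp hu
    obtain ⟨s, hs⟩ := Ideal.mem_span_singleton'.mp hv
    rw [← huv, ← hc, ← hs, mul_add, Finset.mul_sum]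
    refine Ideal.add_mem _ (Ideal.sum_mem _ (fun j _ => ?_)) ?_
    · have : Hm.det * (c j * h j) = c j * (Hm.det * h j) := by ring
      rw [this]
      exact Ideal.mul_mem_left _ _ (hHh j)
    · rw [← mul_assoc]
      exact hbox _ _
  rw [Matrix.det_mul] at hcong
  have : (∏ i : σ, (X i : MvPowerSeries σ k) ^ a) ∈ boxIdeal 𝔠 (Set.univ : Set σ) (a + 1) := by
    have := Ideal.sub_mem _ hdetbox hcong
    rwa [sub_sub_cancel] at this
  exact prod_X_pow_notMem_boxIdeal 𝔠 h1 a this

/-- **A.  Tate's lemma, non-vanishing half.**  `h = G·X`, `X_i^a ∈ (h) + (ϖ)`, `ϖ` a non-unit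
of the coefficient ring ⟹ `det G ∉ (h) + (ϖ)`. -/
theorem det_notMem_span_sup {n : ℕ} (ϖ : k) (hϖ : ¬ IsUnit ϖ)
    (h : Fin n → MvPowerSeries (Fin n) k) (G : Matrix (Fin n) (Fin n) (MvPowerSeries (Fin n) k))
    (hG : ∀ i, h i = ∑ j, G i j * X j) (a : ℕ)
    (hprim : ∀ i, (X i : MvPowerSeries (Fin n) k) ^ a ∈
      Ideal.span (Set.range h) ⊔ Ideal.span {(C ϖ : MvPowerSeries (Fin n) k)}) :
    G.det ∉ Ideal.span (Set.range h) ⊔ Ideal.span {(C ϖ : MvPowerSeries (Fin n) k)} :=
  det_notMem_span_sup' ϖ hϖ h G hG a hprim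

end Main

end Fermat.Agent.S59.H67
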