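import Mathlib
import Fermat.Agent.S59.H67.NCDefs

/-!
# Row S59, piece N1-B (part 1): regular sequences modulo an ideal, elementwise (helper67)

Everything is stated inside a fixed local Noetherian ring `E`, with a varying "base ideal" `I`:
* `NZD I x` : `x` is a non-zero-divisor modulo `I`;
* `Reg I rs` : `rs` is a (weakly) regular sequence modulo `I`;
* `SocZero J` : the socle `(J : 𝔪) / J` vanishes;
* swap lemma for two adjacent elements of a regular sequence;
* exchange lemmas for socles: `I + (u)` versus `I + (v)` for `u, v` non-zero-divisors mod `I`.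
-/

set_option autoImplicit false
set_option linter.unusedSectionVars false

namespace Fermat.Agent.S59.H67

open IsLocalRing

section Defs

variable {E : Type*} [CommRing E]

/-- `x` is a non-zero-divisor modulo `I`. -/
def NZD (I : Ideal E) (x : E) : Prop := ∀ e : E, x * e ∈ I → e ∈ I

/-- `rs` is a weakly regular sequence modulo `I`. -/
def Reg : Ideal E → List E → Prop
  | _, [] => True
  | I, x :: rs => NZD I x ∧ Reg (I ⊔ Ideal.span {x}) rs

@[simp] theorem reg_nil (I : Ideal E) : Reg I [] := trivial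

theorem reg_cons (I : Ideal E) (x : E) (rs : List E) :
    Reg I (x :: rs) ↔ NZD I x ∧ Reg (I ⊔ Ideal.span {x}) rs := Iff.rfl

theorem mem_sup_span_singleton {I : Ideal E} {x e : E} :
    e ∈ I ⊔ Ideal.span {x} ↔ ∃ c : E, e - c * x ∈ I := by
  rw [sup_comm, Ideal.mem_span_singleton_sup]
  constructor
  · rintro ⟨a, b, hb, rfl⟩
    exact ⟨a, by simpa using hb⟩
  · rintro ⟨c, hc⟩
    exact ⟨c, e - c * x, hc, by ring⟩

theorem nzd_iff_isSMulRegular (I : Ideal E) (x : E) :
    NZD I x ↔ IsSMulRegular (E ⧸ I) x := by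
  rw [isSMulRegular_quotient_iff_mem_of_smul_mem]
  rfl

theorem NZD.pow {I : Ideal E} {x : E} (h : NZD I x) (j : ℕ) : NZD I (x ^ j) := by
  induction j with
  | zero => intro e he; simpa using he
  | succ j ih =>
    intro e he
    apply ih
    apply h
    rw [← mul_assoc, ← pow_succ']
    exact he

theorem NZD.ne_top_of_mem {I : Ideal E} {x : E} (h : NZD I x) : x ∈ I → I = ⊤ := by
  intro hx
  rw [Ideal.eq_top_iff_one]
  apply h
  simpa using hx

end Defs

section Local

variable {E : Type*} [CommRing E] [IsLocalRing E] [IsNoetherianRing E]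

/-- Krull intersection modulo `I`. -/
theorem mem_of_forall_mem_sup_span_pow {I : Ideal E} {a : E} (ha : a ∈ maximalIdeal E) {e : E}
    (h : ∀ j : ℕ, e ∈ I ⊔ Ideal.span {a ^ j}) : e ∈ I := by
  have hne : Ideal.span {a} ≠ (⊤ : Ideal E) := by
    intro htop
    have : (1 : E) ∈ Ideal.span {a} := by rw [htop]; trivial
    have h1 : Ideal.span {a} ≤ maximalIdeal E := by
      rw [Ideal.span_le]
      intro x hx
      rw [Set.mem_singleton_iff] at hx
      subst hx
      exact ha
    exact (Ideal.ne_top_iff_one _).mp (IsLocalRing.maximalIdeal.isMaximal E).ne_top (h1 this)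
  have hK := Ideal.iInf_pow_smul_eq_bot_of_isLocalRing (R := E) (M := E ⧸ I) (Ideal.span {a}) hne
  have hmem : (Ideal.Quotient.mk I e : E ⧸ I) ∈
      ⨅ i : ℕ, (Ideal.span {a}) ^ i • (⊤ : Submodule E (E ⧸ I)) := by
    rw [Submodule.mem_iInf]
    intro j
    obtain ⟨c, hc⟩ := mem_sup_span_singleton.mp (h j)
    have h2 : (Ideal.Quotient.mk I e : E ⧸ I) = (a ^ j) • (Ideal.Quotient.mk I c : E ⧸ I) := by
      rw [← sub_eq_zero]
      have : (Ideal.Quotient.mk I e : E ⧸ I) - (a ^ j) • (Ideal.Quotient.mk I c : E ⧸ I) =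
          Ideal.Quotient.mk I (e - c * a ^ j) := by
        rw [map_sub, map_mul, Algebra.smul_def, mul_comm]
        rfl
      rw [this, Ideal.Quotient.eq_zero_iff_mem]
      exact hc
    rw [h2]
    apply Submodule.smul_mem_smul _ Submodule.mem_top
    rw [Ideal.span_singleton_pow]
    exact Ideal.mem_span_singleton_self _
  rw [hK] at hmem
  have : (Ideal.Quotient.mk I e : E ⧸ I) = 0 := by simpa using hmem
  exact Ideal.Quotient.eq_zero_iff_mem.mp this

/-- **Swap lemma**: two adjacent elements of a regular sequence can be exchanged. -/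
theorem nzd_swap {I : Ideal E} {a b : E} (ha : a ∈ maximalIdeal E)
    (h1 : NZD I a) (h2 : NZD (I ⊔ Ideal.span {a}) b) :
    NZD I b ∧ NZD (I ⊔ Ideal.span {b}) a := by
  constructor
  · intro e he
    apply mem_of_forall_mem_sup_span_pow ha
    intro j
    induction j with
    | zero => simp
    | succ j ih =>
      obtain ⟨c, hc⟩ := mem_sup_span_singleton.mp ih
      -- `e = i + c a^j`, `b e ∈ I` so `a^j (b c) ∈ I`
      have h3 : a ^ j * (b * c) ∈ I := by
        have : a ^ j * (b * c) = b * e - b * (e - c * a ^ j) := by ring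
        rw [this]
        exact Ideal.sub_mem _ he (Ideal.mul_mem_left _ _ hc)
      have h4 : b * c ∈ I := (h1.pow j) _ h3
      have h5 : c ∈ I ⊔ Ideal.span {a} := h2 c (Ideal.mem_sup_left h4)
      obtain ⟨c', hc'⟩ := mem_sup_span_singleton.mp h5
      rw [mem_sup_span_singleton]
      refine ⟨c', ?_⟩
      have : e - c' * a ^ (j + 1) = (e - c * a ^ j) + a ^ j * (c - c' * a) := by ring
      rw [this]
      exact Ideal.add_mem _ hc (Ideal.mul_mem_left _ _ hc')
  · intro e he
    obtain ⟨c, hc⟩ := mem_sup_span_singleton.mp he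
    -- `a e - c b ∈ I`, so `b c ∈ I + (a)`
    have h3 : b * c ∈ I ⊔ Ideal.span {a} := by
      rw [mem_sup_span_singleton]
      refine ⟨e, ?_⟩
      have : b * c - e * a = -(a * e - c * b) := by ring
      rw [this]
      exact Ideal.neg_mem_iff _ |>.mpr hc
    have h4 : c ∈ I ⊔ Ideal.span {a} := h2 c h3
    obtain ⟨c', hc'⟩ := mem_sup_span_singleton.mp h4
    rw [mem_sup_span_singleton]
    refine ⟨c', ?_⟩
    apply h1
    have : a * (e - c' * b) = (a * e - c * b) + b * (c - c' * a) := by ring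
    rw [this]
    exact Ideal.add_mem _ hc (Ideal.mul_mem_left _ _ hc')

end Local

section Socle

variable {E : Type*} [CommRing E] [IsLocalRing E]

/-- The socle of `E ⧸ J` vanishes. -/
def SocZero (J : Ideal E) : Prop :=
  ∀ w : E, (∀ a ∈ maximalIdeal E, a * w ∈ J) → w ∈ J

theorem socZero_of_nzd {J : Ideal E} {x : E} (hx : x ∈ maximalIdeal E) (h : NZD J x) :
    SocZero J := fun w hw => h w (hw x hx)

/-- Structure of socle elements modulo `I + (u v)`: they are of the form `v e + i` with `e` in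
the socle modulo `I + (u)`. -/
theorem exists_of_socle_mul {I : Ideal E} {u v : E} (hu : u ∈ maximalIdeal E)
    (hnu : NZD I u) (hnv : NZD I v) {w : E}
    (hw : ∀ a ∈ maximalIdeal E, a * w ∈ I ⊔ Ideal.span {u * v}) :
    ∃ e : E, w - v * e ∈ I ∧ ∀ a ∈ maximalIdeal E, a * e ∈ I ⊔ Ideal.span {u} := by
  obtain ⟨c, hc⟩ := mem_sup_span_singleton.mp (hw u hu)
  -- `u w - c u v ∈ I`, so `w - c v ∈ I`
  have h1 : w - v * c ∈ I := by
    apply hnu
    have : u * (w - v * c) = u * w - c * (u * v) := by ring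
    rw [this]
    exact hc
  refine ⟨c, h1, ?_⟩
  intro a ha
  obtain ⟨c', hc'⟩ := mem_sup_span_singleton.mp (hw a ha)
  rw [mem_sup_span_singleton]
  refine ⟨c', ?_⟩
  apply hnv
  have : v * (a * c - c' * u) = (a * w - c' * (u * v)) - a * (w - v * c) := by ring
  rw [this]
  exact Ideal.sub_mem _ hc' (Ideal.mul_mem_left _ _ h1)

theorem mul_mem_socle {I : Ideal E} {u v : E} {e : E}
    (he : ∀ a ∈ maximalIdeal E, a * e ∈ I ⊔ Ideal.span {u}) :
    ∀ a ∈ maximalIdeal E, a * (v * e) ∈ I ⊔ Ideal.span {u * v} := by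
  intro a ha
  obtain ⟨c, hc⟩ := mem_sup_span_singleton.mp (he a ha)
  rw [mem_sup_span_singleton]
  refine ⟨c, ?_⟩
  have : a * (v * e) - c * (u * v) = v * (a * e - c * u) := by ring
  rw [this]
  exact Ideal.mul_mem_left _ _ hc

theorem mul_mem_iff_of_nzd {I : Ideal E} {u v : E} (hnv : NZD I v) {e : E} :
    v * e ∈ I ⊔ Ideal.span {u * v} ↔ e ∈ I ⊔ Ideal.span {u} := by
  constructor
  · intro h
    obtain ⟨c, hc⟩ := mem_sup_span_singleton.mp h
    rw [mem_sup_span_singleton]
    refine ⟨c, hnv _ ?_⟩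
    have : v * (e - c * u) = v * e - c * (u * v) := by ring
    rw [this]
    exact hc
  · intro h
    obtain ⟨c, hc⟩ := mem_sup_span_singleton.mp h
    rw [mem_sup_span_singleton]
    refine ⟨c, ?_⟩
    have : v * e - c * (u * v) = v * (e - c * u) := by ring
    rw [this]
    exact Ideal.mul_mem_left _ _ hc

/-- Exchange, vanishing socle. -/
theorem socZero_exchange {I : Ideal E} {u v : E} (hu : u ∈ maximalIdeal E)
    (hnu : NZD I u) (hnv : NZD I v)
    (h : SocZero (I ⊔ Ideal.span {u})) : SocZero (I ⊔ Ideal.span {v}) := by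
  intro w hw
  -- `u w` is in the socle mod `I + (v u)`
  have h1 : ∀ a ∈ maximalIdeal E, a * (u * w) ∈ I ⊔ Ideal.span {v * u} := mul_mem_socle hw
  have h1' : ∀ a ∈ maximalIdeal E, a * (u * w) ∈ I ⊔ Ideal.span {u * v} := by
    intro a ha
    rw [mul_comm u v]
    exact h1 a ha
  obtain ⟨e, he1, he2⟩ := exists_of_socle_mul hu hnu hnv h1'
  have he3 : e ∈ I ⊔ Ideal.span {u} := h e he2
  have h2 : v * e ∈ I ⊔ Ideal.span {u * v} := (mul_mem_iff_of_nzd hnv).mpr he3
  have h3 : u * w ∈ I ⊔ Ideal.span {v * u} := by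
    rw [mul_comm v u]
    have : u * w = (u * w - v * e) + v * e := by ring
    rw [this]
    exact Ideal.add_mem _ (Ideal.mem_sup_left he1) h2
  exact (mul_mem_iff_of_nzd hnu).mp h3

/-- Exchange, simple socle. -/
theorem simpleSocle_exchange {I : Ideal E} {u v : E} (hu : u ∈ maximalIdeal E)
    (hv : v ∈ maximalIdeal E) (hnu : NZD I u) (hnv : NZD I v) {z : E}
    (h : SimpleSocleMod (I ⊔ Ideal.span {u}) z) :
    ∃ z' : E, SimpleSocleMod (I ⊔ Ideal.span {v}) z' := by
  obtain ⟨hz1, hz2, hz3⟩ := h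
  -- `v z` spans the socle mod `I + (u v)`
  have hvz : ∀ a ∈ maximalIdeal E, a * (v * z) ∈ I ⊔ Ideal.span {u * v} := mul_mem_socle hz2
  -- write `v z = u z₂ + i` with `z₂` in the socle mod `I + (v)`
  have hvz' : ∀ a ∈ maximalIdeal E, a * (v * z) ∈ I ⊔ Ideal.span {v * u} := by
    intro a ha
    rw [mul_comm v u]
    exact hvz a ha
  obtain ⟨z₂, hz₂1, hz₂2⟩ := exists_of_socle_mul hv hnv hnu hvz'
  refine ⟨z₂, ?_, hz₂2, ?_⟩
  · intro hmem
    -- then `u z₂ ∈ I + (v u)`, so `v z ∈ I + (u v)`, so `z ∈ I + (u)`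
    have h1 : u * z₂ ∈ I ⊔ Ideal.span {v * u} := (mul_mem_iff_of_nzd hnu).mpr hmem
    have h2 : v * z ∈ I ⊔ Ideal.span {u * v} := by
      rw [mul_comm u v]
      have : v * z = (v * z - u * z₂) + u * z₂ := by ring
      rw [this]
      exact Ideal.add_mem _ (Ideal.mem_sup_left hz₂1) h1
    exact hz1 ((mul_mem_iff_of_nzd hnv).mp h2)
  · intro w hw
    -- `u w` is in the socle mod `I + (v u)`; so `u w = v e + i`, `e` in socle mod `I + (u)`
    have h1 : ∀ a ∈ maximalIdeal E, a * (u * w) ∈ I ⊔ Ideal.span {u * v} := by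
      intro a ha
      rw [mul_comm u v]
      exact mul_mem_socle hw a ha
    obtain ⟨e, he1, he2⟩ := exists_of_socle_mul hu hnu hnv h1
    obtain ⟨c, hc⟩ := hz3 e he2
    refine ⟨c, ?_⟩
    -- `u (w - c z₂) ∈ I + (v u)`
    apply (mul_mem_iff_of_nzd hnu).mp
    rw [mul_comm v u]
    have h2 : v * (e - c * z) ∈ I ⊔ Ideal.span {u * v} := (mul_mem_iff_of_nzd hnv).mpr hc
    have : u * (w - c * z₂) = (u * w - v * e) + v * (e - c * z) + c * (v * z - u * z₂) := by
      ring
    rw [this]
    exact Ideal.add_mem _ (Ideal.add_mem _ (Ideal.mem_sup_left he1) h2)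
      (Ideal.mem_sup_left (Ideal.mul_mem_left _ _ hz₂1))

end Socle

end Fermat.Agent.S59.H67
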