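import Mathlib
import Fermat.Agent.S59.H67.RegBasic

/-!
# Row S59, piece N1-B (part 2): dimension theory and associated primes modulo an ideal (helper67)

Bridges to Mathlib's `ringKrullDim` and `associatedPrimes`, elementwise formulations:
* `dim_sup_span_add_one_eq`, `dim_le_dim_sup_span_add_one`, `dim_le_dim_sup_ofList_add`;
* `IsAss I 𝔭` (associated prime of `E ⧸ I`), zero-divisors, prime avoidance `exists_nzd_two`;
* unmixedness `length_le_dim_of_isAss` and its consequence `nzd_of_dim`.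
-/

set_option autoImplicit false
set_option linter.unusedSectionVars false

namespace Fermat.Agent.S59.H67

open IsLocalRing

variable {E : Type*} [CommRing E] [IsLocalRing E] [IsNoetherianRing E]

/-! ### Dimension -/

theorem mk_mem_jacobson (I : Ideal E) {x : E} (hx : x ∈ maximalIdeal E) :
    (Ideal.Quotient.mk I x) ∈ Ring.jacobson (E ⧸ I) := by
  rw [Ring.jacobson_eq_sInf_isMaximal, Ideal.mem_sInf]
  intro M hM
  have hM' : M.IsMaximal := hM
  have hc : (Ideal.comap (Ideal.Quotient.mk I) M).IsMaximal :=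
    Ideal.comap_isMaximal_of_surjective _ Ideal.Quotient.mk_surjective
  have := IsLocalRing.eq_maximalIdeal hc
  have hx' : x ∈ Ideal.comap (Ideal.Quotient.mk I) M := by rw [this]; exact hx
  exact hx'

/-- The ring `(E ⧸ I) ⧸ (x̄)` is `E ⧸ (I + (x))`. -/
noncomputable def quotQuotSpanEquiv (I : Ideal E) (x : E) :
    ((E ⧸ I) ⧸ Ideal.span {Ideal.Quotient.mk I x}) ≃+* E ⧸ (I ⊔ Ideal.span {x}) :=
  (Ideal.quotEquivOfEq (by rw [Ideal.map_span, Set.image_singleton])).trans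
    (DoubleQuot.quotQuotEquivQuotSup I (Ideal.span {x}))

theorem dim_quotQuot (I : Ideal E) (x : E) :
    ringKrullDim ((E ⧸ I) ⧸ Ideal.span {Ideal.Quotient.mk I x}) =
      ringKrullDim (E ⧸ (I ⊔ Ideal.span {x})) :=
  ringKrullDim_eq_of_ringEquiv (quotQuotSpanEquiv I x)

theorem dim_mono {I J : Ideal E} (h : I ≤ J) : ringKrullDim (E ⧸ J) ≤ ringKrullDim (E ⧸ I) :=
  ringKrullDim_le_of_surjective (Ideal.Quotient.factor h) (Ideal.Quotient.factor_surjective h)

theorem dim_sup_span_add_one_eq {I : Ideal E} {x : E} (hx : x ∈ maximalIdeal E)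
    (h : NZD I x) :
    ringKrullDim (E ⧸ (I ⊔ Ideal.span {x})) + 1 = ringKrullDim (E ⧸ I) := by
  rw [← dim_quotQuot]
  apply ringKrullDim_quotient_span_singleton_succ_eq_ringKrullDim_of_mem_jacobson
  · intro a b hab
    obtain ⟨a, rfl⟩ := Ideal.Quotient.mk_surjective a
    obtain ⟨b, rfl⟩ := Ideal.Quotient.mk_surjective b
    simp only [smul_eq_mul, ← map_mul] at hab
    rw [Ideal.Quotient.eq] at hab ⊢
    apply h
    rw [mul_sub]
    exact hab
  · exact mk_mem_jacobson I hx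

theorem dim_le_dim_sup_span_add_one (I : Ideal E) {x : E} (hx : x ∈ maximalIdeal E) :
    ringKrullDim (E ⧸ I) ≤ ringKrullDim (E ⧸ (I ⊔ Ideal.span {x})) + 1 := by
  rw [← dim_quotQuot]
  have := ringKrullDim_le_ringKrullDim_quotient_add_card
    (R := E ⧸ I) ({Ideal.Quotient.mk I x} : Finset (E ⧸ I)) (by
      intro y hy
      simp only [Finset.coe_singleton, Set.mem_singleton_iff] at hy
      subst hy
      exact mk_mem_jacobson I hx)
  rw [Finset.coe_singleton, Finset.card_singleton, Nat.cast_one] at this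
  exact this

theorem dim_le_dim_sup_ofList_add (l : List E) (hl : ∀ x ∈ l, x ∈ maximalIdeal E) :
    ∀ I : Ideal E,
      ringKrullDim (E ⧸ I) ≤ ringKrullDim (E ⧸ (I ⊔ Ideal.ofList l)) + (l.length : ℕ) := by
  induction l with
  | nil =>
    intro I
    rw [Ideal.ofList_nil, sup_bot_eq]
    simp
  | cons x l ih =>
    intro I
    have hx : x ∈ maximalIdeal E := hl x (by simp)
    have h1 := dim_le_dim_sup_span_add_one I hx
    have h2 := ih (fun y hy => hl y (by simp [hy])) (I ⊔ Ideal.span {x})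
    rw [Ideal.ofList_cons, ← sup_assoc]
    calc ringKrullDim (E ⧸ I) ≤ ringKrullDim (E ⧸ (I ⊔ Ideal.span {x})) + 1 := h1
      _ ≤ (ringKrullDim (E ⧸ (I ⊔ Ideal.span {x} ⊔ Ideal.ofList l)) + (l.length : ℕ)) + 1 := by
        gcongr
      _ = ringKrullDim (E ⧸ (I ⊔ Ideal.span {x} ⊔ Ideal.ofList l)) +
          ((x :: l).length : ℕ) := by
        rw [List.length_cons, Nat.cast_add, Nat.cast_one, add_assoc]

theorem dim_add_one_le_of_lt {𝔭 𝔮 : Ideal E} [𝔭.IsPrime] (h : 𝔭 ≤ 𝔮) {x : E} (hx𝔮 : x ∈ 𝔮)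
    (hx𝔭 : x ∉ 𝔭) : ringKrullDim (E ⧸ 𝔮) + 1 ≤ ringKrullDim (E ⧸ 𝔭) := by
  have h1 : Ideal.Quotient.mk 𝔭 x ∈ nonZeroDivisors (E ⧸ 𝔭) := by
    rw [mem_nonZeroDivisors_iff_ne_zero]
    intro h0
    exact hx𝔭 (Ideal.Quotient.eq_zero_iff_mem.mp h0)
  have h2 := ringKrullDim_quotient_succ_le_of_nonZeroDivisor h1
  rw [dim_quotQuot] at h2
  have h3 : 𝔭 ⊔ Ideal.span {x} ≤ 𝔮 := by
    rw [sup_le_iff]
    refine ⟨h, ?_⟩
    rw [Ideal.span_le]
    intro y hy
    rw [Set.mem_singleton_iff] at hy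
    subst hy
    exact hx𝔮
  calc ringKrullDim (E ⧸ 𝔮) + 1 ≤ ringKrullDim (E ⧸ (𝔭 ⊔ Ideal.span {x})) + 1 := by
        gcongr
        exact dim_mono h3
    _ ≤ ringKrullDim (E ⧸ 𝔭) := h2

/-! ### Associated primes, elementwise -/

/-- `𝔭` is an associated prime of `E ⧸ I`. -/
def IsAss (I 𝔭 : Ideal E) : Prop :=
  𝔭.IsPrime ∧ ∃ e : E, e ∉ I ∧ ∀ a : E, a ∈ 𝔭 ↔ a * e ∈ I

theorem isAss_iff (I 𝔭 : Ideal E) : IsAss I 𝔭 ↔ IsAssociatedPrime 𝔭 (E ⧸ I) := by
  rw [isAssociatedPrime_iff]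
  constructor
  · rintro ⟨hp, e, _, he⟩
    refine ⟨hp, Ideal.Quotient.mk I e, ?_⟩
    ext a
    rw [he a, Submodule.mem_colon_singleton, Submodule.mem_bot]
    have : a • (Ideal.Quotient.mk I e : E ⧸ I) = Ideal.Quotient.mk I (a * e) := by
      rw [map_mul, Algebra.smul_def]
      rfl
    rw [this, Ideal.Quotient.eq_zero_iff_mem]
  · rintro ⟨hp, x, hx⟩
    obtain ⟨e, rfl⟩ := Ideal.Quotient.mk_surjective x
    have key : ∀ a : E, a ∈ 𝔭 ↔ a * e ∈ I := by
      intro a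
      rw [hx, Submodule.mem_colon_singleton, Submodule.mem_bot]
      have : a • (Ideal.Quotient.mk I e : E ⧸ I) = Ideal.Quotient.mk I (a * e) := by
        rw [map_mul, Algebra.smul_def]
        rfl
      rw [this, Ideal.Quotient.eq_zero_iff_mem]
    refine ⟨hp, e, ?_, key⟩
    intro heI
    apply hp.ne_top
    rw [Ideal.eq_top_iff_one, key 1]
    simpa using heI

theorem IsAss.le {I 𝔭 : Ideal E} (h : IsAss I 𝔭) : I ≤ 𝔭 := by
  obtain ⟨_, e, _, he⟩ := h
  intro i hi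
  rw [he]
  exact Ideal.mul_mem_right _ _ hi

theorem setOf_isAss_finite (I : Ideal E) : {𝔭 : Ideal E | IsAss I 𝔭}.Finite := by
  have := associatedPrimes.finite E (E ⧸ I)
  refine this.subset ?_
  intro 𝔭 h𝔭
  exact (isAss_iff I 𝔭).mp h𝔭

theorem exists_isAss_of_notMem {I : Ideal E} {e : E} (he : e ∉ I) :
    ∃ 𝔭 : Ideal E, IsAss I 𝔭 ∧ ∀ a : E, a * e ∈ I → a ∈ 𝔭 := by
  have h0 : (Ideal.Quotient.mk I e : E ⧸ I) ≠ 0 := by
    intro h
    exact he (Ideal.Quotient.eq_zero_iff_mem.mp h)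
  obtain ⟨P, hP, hle⟩ := exists_le_isAssociatedPrime_of_isNoetherianRing E _ h0
  refine ⟨P, (isAss_iff I P).mpr hP, ?_⟩
  intro a ha
  apply hle
  rw [Submodule.mem_colon_singleton, Submodule.mem_bot]
  have : a • (Ideal.Quotient.mk I e : E ⧸ I) = Ideal.Quotient.mk I (a * e) := by
    rw [map_mul, Algebra.smul_def]
    rfl
  rw [this, Ideal.Quotient.eq_zero_iff_mem]
  exact ha

theorem exists_isAss_of_not_nzd {I : Ideal E} {y : E} (h : ¬ NZD I y) :
    ∃ 𝔭 : Ideal E, IsAss I 𝔭 ∧ y ∈ 𝔭 := by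
  unfold NZD at h
  push Not at h
  obtain ⟨e, he1, he2⟩ := h
  obtain ⟨𝔭, h𝔭, hle⟩ := exists_isAss_of_notMem he2
  exact ⟨𝔭, h𝔭, hle y he1⟩

/-- **Prime avoidance**: if the socles of `E ⧸ I₁` and `E ⧸ I₂` vanish, some element of the
maximal ideal is a non-zero-divisor modulo both. -/
theorem exists_nzd_two {I₁ I₂ : Ideal E} (h1 : SocZero I₁) (h2 : SocZero I₂) :
    ∃ u ∈ maximalIdeal E, NZD I₁ u ∧ NZD I₂ u := by
  classical
  by_contra hcon
  push Not at hcon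
  set S : Finset (Ideal E) :=
    (setOf_isAss_finite I₁).toFinset ∪ (setOf_isAss_finite I₂).toFinset with hS
  have hsub : ((maximalIdeal E : Ideal E) : Set E) ⊆ ⋃ 𝔭 ∈ (S : Set (Ideal E)), (𝔭 : Set E) := by
    intro u hu
    by_cases hu1 : NZD I₁ u
    · have hu2 := hcon u hu hu1
      obtain ⟨𝔭, h𝔭, hy⟩ := exists_isAss_of_not_nzd hu2
      refine Set.mem_biUnion (x := 𝔭) ?_ hy
      simp [hS, h𝔭]
    · obtain ⟨𝔭, h𝔭, hy⟩ := exists_isAss_of_not_nzd hu1
      refine Set.mem_biUnion (x := 𝔭) ?_ hy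
      simp [hS, h𝔭]
  have hprime : ∀ 𝔭 ∈ S, 𝔭.IsPrime := by
    intro 𝔭 h𝔭
    simp only [hS, Finset.mem_union, Set.Finite.mem_toFinset, Set.mem_ofPred_eq] at h𝔭
    rcases h𝔭 with h | h
    · exact h.1
    · exact h.1
  obtain ⟨𝔭, h𝔭S, hle⟩ := (Ideal.subset_union_prime (f := fun 𝔭 : Ideal E => 𝔭)
    (maximalIdeal E) (maximalIdeal E) (fun i hi _ _ => hprime i hi)).mp hsub
  have hp := hprime 𝔭 h𝔭S
  have heq : 𝔭 = maximalIdeal E :=
    le_antisymm (IsLocalRing.le_maximalIdeal hp.ne_top) hle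
  simp only [hS, Finset.mem_union, Set.Finite.mem_toFinset, Set.mem_ofPred_eq] at h𝔭S
  rcases h𝔭S with h | h
  · obtain ⟨_, e, he1, he2⟩ := h
    exact he1 (h1 e (fun a ha => (he2 a).mp (heq ▸ ha)))
  · obtain ⟨_, e, he1, he2⟩ := h
    exact he1 (h2 e (fun a ha => (he2 a).mp (heq ▸ ha)))

/-! ### Unmixedness -/

/-- If `s` is a regular sequence modulo `I` and `𝔭` is an associated prime of `E ⧸ I`, then
`dim E ⧸ 𝔭 ≥ length s`. -/
theorem length_le_dim_of_isAss (s : List E) (hs : ∀ x ∈ s, x ∈ maximalIdeal E) :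
    ∀ (I 𝔭 : Ideal E), Reg I s → IsAss I 𝔭 →
      ((s.length : ℕ) : WithBot ℕ∞) ≤ ringKrullDim (E ⧸ 𝔭) := by
  induction s with
  | nil =>
    intro I 𝔭 _ h𝔭
    have := h𝔭.1
    simpa using ringKrullDim_nonneg_of_nontrivial (R := E ⧸ 𝔭)
  | cons x s ih =>
    intro I 𝔭 hreg h𝔭
    obtain ⟨hx, hreg'⟩ := hreg
    have hxm : x ∈ maximalIdeal E := hs x (by simp)
    obtain ⟨hp, e, he1, he2⟩ := h𝔭
    have := hp
    -- Krull intersection: find `c ∉ I + (x)` with `(I : e) ⊆ (I + (x) : c)`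
    have hex : ∃ j : ℕ, e ∉ I ⊔ Ideal.span {x ^ j} := by
      by_contra hcon
      push Not at hcon
      exact he1 (mem_of_forall_mem_sup_span_pow hxm hcon)
    classical
    have hj0 : Nat.find hex ≠ 0 := by
      intro h0
      have := Nat.find_spec hex
      rw [h0] at this
      simp at this
    obtain ⟨j, hj⟩ := Nat.exists_eq_succ_of_ne_zero hj0
    have hjmem : e ∈ I ⊔ Ideal.span {x ^ j} := by
      by_contra hcon
      have := Nat.find_min' hex hcon
      omega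
    have hjnot : e ∉ I ⊔ Ideal.span {x ^ (j + 1)} := by
      have := Nat.find_spec hex
      rwa [hj] at this
    obtain ⟨c, hc⟩ := mem_sup_span_singleton.mp hjmem
    have hcnot : c ∉ I ⊔ Ideal.span {x} := by
      intro hcm
      obtain ⟨c', hc'⟩ := mem_sup_span_singleton.mp hcm
      apply hjnot
      rw [mem_sup_span_singleton]
      refine ⟨c', ?_⟩
      have : e - c' * x ^ (j + 1) = (e - c * x ^ j) + x ^ j * (c - c' * x) := by ring
      rw [this]
      exact Ideal.add_mem _ hc (Ideal.mul_mem_left _ _ hc')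
    obtain ⟨𝔮, h𝔮, hle⟩ := exists_isAss_of_notMem hcnot
    have h𝔭𝔮 : 𝔭 ≤ 𝔮 := by
      intro a ha
      apply hle
      apply Ideal.mem_sup_left
      apply (hx.pow j)
      have : x ^ j * (a * c) = a * e - a * (e - c * x ^ j) := by ring
      rw [this]
      exact Ideal.sub_mem _ ((he2 a).mp ha) (Ideal.mul_mem_left _ _ hc)
    have hx𝔮 : x ∈ 𝔮 := by
      apply hle
      apply Ideal.mem_sup_right
      exact Ideal.mul_mem_right _ _ (Ideal.mem_span_singleton_self x)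
    have hx𝔭 : x ∉ 𝔭 := by
      intro hxp
      exact he1 (hx e ((he2 x).mp hxp))
    have h1 := ih (fun y hy => hs y (by simp [hy])) _ 𝔮 hreg' h𝔮
    have h2 := dim_add_one_le_of_lt h𝔭𝔮 hx𝔮 hx𝔭
    calc (((x :: s).length : ℕ) : WithBot ℕ∞) = ((s.length : ℕ) : WithBot ℕ∞) + 1 := by
          rw [List.length_cons, Nat.cast_add, Nat.cast_one]
      _ ≤ ringKrullDim (E ⧸ 𝔮) + 1 := by gcongr
      _ ≤ ringKrullDim (E ⧸ 𝔭) := h2

/-- **Step 1**: in a ring which has a regular sequence of length `d + 1` modulo `I`, the first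
element of any system of parameters (of length `d + 1`) modulo `I` is a non-zero-divisor. -/
theorem nzd_of_dim {I : Ideal E} {s : List E} (hs : ∀ x ∈ s, x ∈ maximalIdeal E)
    (hreg : Reg I s) {y : E} {t' : List E} (ht' : ∀ x ∈ t', x ∈ maximalIdeal E)
    (hlen : s.length = t'.length + 1)
    (hdim : ringKrullDim (E ⧸ (I ⊔ Ideal.span {y} ⊔ Ideal.ofList t')) ≤ 0) :
    NZD I y := by
  by_contra hcon
  obtain ⟨𝔭, h𝔭, hy⟩ := exists_isAss_of_not_nzd hcon
  have h1 := length_le_dim_of_isAss s hs I 𝔭 hreg h𝔭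
  have h2 := dim_le_dim_sup_ofList_add t' ht' 𝔭
  have h3 : I ⊔ Ideal.span {y} ⊔ Ideal.ofList t' ≤ 𝔭 ⊔ Ideal.ofList t' := by
    apply sup_le_sup_right
    rw [sup_le_iff]
    refine ⟨h𝔭.le, ?_⟩
    rw [Ideal.span_le]
    intro z hz
    rw [Set.mem_singleton_iff] at hz
    subst hz
    exact hy
  have h4 : ringKrullDim (E ⧸ (𝔭 ⊔ Ideal.ofList t')) ≤ 0 := (dim_mono h3).trans hdim
  have h5 : ((s.length : ℕ) : WithBot ℕ∞) ≤ 0 + (t'.length : ℕ) :=
    h1.trans (h2.trans (by gcongr))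
  rw [zero_add, hlen] at h5
  norm_cast at h5
  omega

end Fermat.Agent.S59.H67
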