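import Mathlib
import Fermat.Agent.S59.H67.RegDim

/-!
# Row S59, piece N1-B (part 3): parameter ideals of a regular local ring (helper67)

Main result `isRegular_and_simpleSocle_of_primary`: if the maximal ideal of the local Noetherian
ring `E` is generated by a regular sequence `s`, then every sequence `t ⊆ 𝔪` of the same length
with `𝔪 ^ N ≤ (t)` is a regular sequence, and `E ⧸ (t)` has a simple socle
(Cohen–Macaulay and Gorenstein properties of complete intersections, by exchange).
-/

set_option autoImplicit false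
set_option linter.unusedSectionVars false

namespace Fermat.Agent.S59.H67

open IsLocalRing

variable {E : Type*} [CommRing E] [IsLocalRing E] [IsNoetherianRing E]

/-- `rs ⊆ 𝔪` is a regular sequence modulo `I` with zero-dimensional quotient having a simple
socle. -/
structure GorSeq (I : Ideal E) (rs : List E) : Prop where
  reg : Reg I rs
  mem : ∀ x ∈ rs, x ∈ maximalIdeal E
  dim : ringKrullDim (E ⧸ (I ⊔ Ideal.ofList rs)) ≤ 0
  soc : ∃ z : E, SimpleSocleMod (I ⊔ Ideal.ofList rs) z

theorem gorSeq_cons_iff (I : Ideal E) (x : E) (rs : List E) :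
    GorSeq I (x :: rs) ↔
      NZD I x ∧ x ∈ maximalIdeal E ∧ GorSeq (I ⊔ Ideal.span {x}) rs := by
  have hid : I ⊔ Ideal.ofList (x :: rs) = I ⊔ Ideal.span {x} ⊔ Ideal.ofList rs := by
    rw [Ideal.ofList_cons, sup_assoc]
  constructor
  · rintro ⟨hreg, hmem, hdim, hsoc⟩
    rw [hid] at hdim hsoc
    exact ⟨hreg.1, hmem x (by simp), hreg.2, fun y hy => hmem y (by simp [hy]), hdim, hsoc⟩
  · rintro ⟨hx, hxm, hreg, hmem, hdim, hsoc⟩
    refine ⟨⟨hx, hreg⟩, ?_, ?_, ?_⟩
    · intro y hy
      rcases List.mem_cons.mp hy with rfl | hy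
      · exact hxm
      · exact hmem y hy
    · rw [hid]; exact hdim
    · rw [hid]; exact hsoc

theorem gorSeq_nil_iff (I : Ideal E) :
    GorSeq I [] ↔ ringKrullDim (E ⧸ I) ≤ 0 ∧ ∃ z : E, SimpleSocleMod I z := by
  have hid : I ⊔ Ideal.ofList ([] : List E) = I := by
    rw [Ideal.ofList_nil, sup_bot_eq]
  constructor
  · rintro ⟨_, _, hdim, hsoc⟩
    rw [hid] at hdim hsoc
    exact ⟨hdim, hsoc⟩
  · rintro ⟨hdim, hsoc⟩
    refine ⟨trivial, by simp, ?_, ?_⟩
    · rw [hid]; exact hdim
    · rw [hid]; exact hsoc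

/-- **Move**: if `rs` (of length `d + 1`) is a Gorenstein-regular sequence modulo `I` and `y ∈ 𝔪`
is a non-zero-divisor modulo `I`, there is a Gorenstein-regular sequence of length `d` modulo
`I + (y)`. -/
theorem gorSeq_move : ∀ (d : ℕ) (I : Ideal E) (rs : List E), rs.length = d + 1 → GorSeq I rs →
    ∀ y ∈ maximalIdeal E, NZD I y →
      ∃ rs' : List E, rs'.length = d ∧ GorSeq (I ⊔ Ideal.span {y}) rs' := by
  intro d
  induction d with
  | zero =>
    intro I rs hlen hG y hy hny
    obtain ⟨x, rfl⟩ : ∃ x, rs = [x] := List.length_eq_one_iff.mp hlen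
    rw [gorSeq_cons_iff, gorSeq_nil_iff] at hG
    obtain ⟨hnx, hx, hdim, z, hz⟩ := hG
    refine ⟨[], rfl, (gorSeq_nil_iff _).mpr ⟨?_, ?_⟩⟩
    · have h1 := dim_sup_span_add_one_eq hy hny
      have h2 := dim_le_dim_sup_span_add_one I hx
      have h3 : ringKrullDim (E ⧸ (I ⊔ Ideal.span {y})) + 1 ≤ ((0 : ℕ) : WithBot ℕ∞) + 1 := by
        rw [h1]
        refine h2.trans ?_
        gcongr
        simpa using hdim
      simpa using ENat.WithBot.add_le_add_natCast_right_iff.mp h3
    · exact simpleSocle_exchange hx hy hnx hny hz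
  | succ d ih =>
    intro I rs hlen hG y hy hny
    obtain ⟨x₁, rs₁, rfl⟩ : ∃ x₁ rs₁, rs = x₁ :: rs₁ := by
      cases rs with
      | nil => simp at hlen
      | cons a l => exact ⟨a, l, rfl⟩
    have hlen₁ : rs₁.length = d + 1 := by simpa using hlen
    rw [gorSeq_cons_iff] at hG
    obtain ⟨hnx₁, hx₁, hG₁⟩ := hG
    -- socles vanish
    have hsoc₁ : SocZero (I ⊔ Ideal.span {x₁}) := by
      obtain ⟨x₂, rs₂, rfl⟩ : ∃ x₂ rs₂, rs₁ = x₂ :: rs₂ := by
        cases rs₁ with
        | nil => simp at hlen₁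
        | cons a l => exact ⟨a, l, rfl⟩
      exact socZero_of_nzd (hG₁.mem x₂ (by simp)) hG₁.reg.1
    have hsocy : SocZero (I ⊔ Ideal.span {y}) := socZero_exchange hx₁ hnx₁ hny hsoc₁
    obtain ⟨u, hu, hnu₁, hnuy⟩ := exists_nzd_two hsoc₁ hsocy
    -- move `u` into the sequence `rs₁` modulo `I + (x₁)`
    obtain ⟨rs₂, hlen₂, hG₂⟩ := ih (I ⊔ Ideal.span {x₁}) rs₁ hlen₁ hG₁ u hu hnu₁
    -- swap `x₁` and `u`
    obtain ⟨hnu, hnx₁u⟩ := nzd_swap hx₁ hnx₁ hnu₁
    have hG₃ : GorSeq (I ⊔ Ideal.span {u}) (x₁ :: rs₂) := by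
      rw [gorSeq_cons_iff]
      refine ⟨hnx₁u, hx₁, ?_⟩
      rw [sup_right_comm]
      exact hG₂
    -- swap `y` and `u`
    obtain ⟨_, hnyu⟩ := nzd_swap hy hny hnuy
    obtain ⟨rs₃, hlen₃, hG₄⟩ := ih (I ⊔ Ideal.span {u}) (x₁ :: rs₂) (by simp [hlen₂]) hG₃ y hy hnyu
    refine ⟨u :: rs₃, by simp [hlen₃], ?_⟩
    rw [gorSeq_cons_iff]
    refine ⟨hnuy, hu, ?_⟩
    rw [sup_right_comm]
    exact hG₄

/-- **Exchange theorem**: all systems of parameters modulo `I` are Gorenstein-regular as soon as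
one is. -/
theorem gorSeq_of_dim : ∀ (d : ℕ) (I : Ideal E) (s t : List E), s.length = d → t.length = d →
    GorSeq I s → (∀ x ∈ t, x ∈ maximalIdeal E) →
    ringKrullDim (E ⧸ (I ⊔ Ideal.ofList t)) ≤ 0 → GorSeq I t := by
  intro d
  induction d with
  | zero =>
    intro I s t hs ht hG _ _
    rw [List.length_eq_zero_iff] at hs ht
    subst hs ht
    exact hG
  | succ d ih =>
    intro I s t hs ht hG htm hdim
    obtain ⟨y, t', rfl⟩ : ∃ y t', t = y :: t' := by
      cases t with
      | nil => simp at ht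
      | cons a l => exact ⟨a, l, rfl⟩
    have ht' : t'.length = d := by simpa using ht
    have hy : y ∈ maximalIdeal E := htm y (by simp)
    have htm' : ∀ x ∈ t', x ∈ maximalIdeal E := fun x hx => htm x (by simp [hx])
    have hdim' : ringKrullDim (E ⧸ (I ⊔ Ideal.span {y} ⊔ Ideal.ofList t')) ≤ 0 := by
      rw [Ideal.ofList_cons, ← sup_assoc] at hdim
      exact hdim
    have hny : NZD I y := nzd_of_dim hG.mem hG.reg htm' (by rw [hs, ht']) hdim'
    obtain ⟨rs', hlen', hG'⟩ := gorSeq_move d I s hs hG y hy hny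
    have := ih (I ⊔ Ideal.span {y}) rs' t' hlen' ht' hG' htm' hdim'
    rw [gorSeq_cons_iff]
    exact ⟨hny, hy, this⟩

/-! ### Bridge to Mathlib's regular sequences -/

theorem reg_iff_forall (rs : List E) : ∀ I : Ideal E,
    Reg I rs ↔ ∀ (i : ℕ) (h : i < rs.length), NZD (I ⊔ Ideal.ofList (rs.take i)) rs[i] := by
  induction rs with
  | nil =>
    intro I
    simp
  | cons x rs ih =>
    intro I
    rw [reg_cons, ih]
    constructor
    · rintro ⟨hx, h⟩ i hi
      cases i with
      | zero =>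
        simp only [List.take_zero, Ideal.ofList_nil, sup_bot_eq, List.getElem_cons_zero]
        exact hx
      | succ i =>
        simp only [List.take_succ_cons, Ideal.ofList_cons, List.getElem_cons_succ]
        rw [← sup_assoc]
        exact h i (by simpa using hi)
    · intro h
      refine ⟨?_, ?_⟩
      · have := h 0 (by simp)
        simpa using this
      · intro i hi
        have := h (i + 1) (by simpa using hi)
        simp only [List.take_succ_cons, Ideal.ofList_cons, List.getElem_cons_succ] at this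
        rw [← sup_assoc] at this
        exact this

theorem reg_bot_iff_isWeaklyRegular (rs : List E) :
    Reg (⊥ : Ideal E) rs ↔ RingTheory.Sequence.IsWeaklyRegular E rs := by
  rw [reg_iff_forall, RingTheory.Sequence.isWeaklyRegular_iff]
  refine forall_congr' (fun i => forall_congr' (fun hi => ?_))
  rw [isSMulRegular_quotient_iff_mem_of_smul_mem]
  simp only [bot_sup_eq, smul_eq_mul, Ideal.mul_top]
  rfl

/-- Zero-dimensionality of `E ⧸ J` when `J` contains a power of the maximal ideal. -/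
theorem dim_le_zero_of_pow_le {J : Ideal E} {N : ℕ} (h : maximalIdeal E ^ N ≤ J) :
    ringKrullDim (E ⧸ J) ≤ 0 := by
  have : Ring.KrullDimLE 0 (E ⧸ J) := by
    rw [Ring.krullDimLE_zero_iff]
    intro P hP
    have hc : (Ideal.comap (Ideal.Quotient.mk J) P).IsPrime := Ideal.comap_isPrime _ P
    have hJ : J ≤ Ideal.comap (Ideal.Quotient.mk J) P := by
      intro x hx
      rw [Ideal.mem_comap, Ideal.Quotient.eq_zero_iff_mem.mpr hx]
      exact P.zero_mem
    have hm : maximalIdeal E ≤ Ideal.comap (Ideal.Quotient.mk J) P :=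
      hc.le_of_pow_le (h.trans hJ)
    have heq : Ideal.comap (Ideal.Quotient.mk J) P = maximalIdeal E :=
      le_antisymm (IsLocalRing.le_maximalIdeal hc.ne_top) hm
    have hmax : (Ideal.comap (Ideal.Quotient.mk J) P).IsMaximal := by
      rw [heq]
      exact IsLocalRing.maximalIdeal.isMaximal E
    have hmc := Ideal.map_comap_of_surjective (Ideal.Quotient.mk J) Ideal.Quotient.mk_surjective P
    rcases Ideal.map_eq_top_or_isMaximal_of_surjective (Ideal.Quotient.mk J)
      Ideal.Quotient.mk_surjective hmax with h1 | h1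
    · rw [hmc] at h1
      exact absurd h1 hP.ne_top
    · rwa [hmc] at h1
  simpa using Ring.krullDimLE_iff.mp this

/-- **B.**  `E` local Noetherian whose maximal ideal is generated by a regular sequence `s`;
`t ⊆ 𝔪` of the same length with `𝔪 ^ N ≤ (t)`.  Then `t` is a regular sequence and
`E ⧸ (t)` has a simple socle. -/
theorem isRegular_and_simpleSocle_of_primary
    (s t : List E) (hlen : t.length = s.length)
    (hs : RingTheory.Sequence.IsRegular E s) (hsm : Ideal.ofList s = maximalIdeal E)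
    (ht : ∀ x ∈ t, x ∈ maximalIdeal E)
    (N : ℕ) (htN : maximalIdeal E ^ N ≤ Ideal.ofList t) :
    RingTheory.Sequence.IsRegular E t ∧ ∃ z : E, SimpleSocleMod (Ideal.ofList t) z := by
  have hGs : GorSeq (⊥ : Ideal E) s := by
    refine ⟨(reg_bot_iff_isWeaklyRegular s).mpr hs.toIsWeaklyRegular, ?_, ?_, ?_⟩
    · intro x hx
      rw [← hsm]
      exact Ideal.subset_span hx
    · rw [bot_sup_eq, hsm]
      exact dim_le_zero_of_pow_le (N := 1) (by simp)
    · rw [bot_sup_eq, hsm]
      refine ⟨1, ?_, ?_, ?_⟩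
      · exact (Ideal.ne_top_iff_one _).mp (IsLocalRing.maximalIdeal.isMaximal E).ne_top
      · intro a ha
        simpa using ha
      · intro w _
        exact ⟨w, by simp⟩
  have hdim : ringKrullDim (E ⧸ ((⊥ : Ideal E) ⊔ Ideal.ofList t)) ≤ 0 := by
    rw [bot_sup_eq]
    exact dim_le_zero_of_pow_le htN
  have hGt := gorSeq_of_dim s.length ⊥ s t rfl hlen hGs ht hdim
  refine ⟨?_, ?_⟩
  · exact RingTheory.Sequence.IsRegular.of_isWeaklyRegular_of_mem_maximalIdeal E ht
      ((reg_bot_iff_isWeaklyRegular t).mp hGt.reg)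
  · have := hGt.soc
    rwa [bot_sup_eq] at this

end Fermat.Agent.S59.H67
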